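import Fermat.Agent.S55.H181.KummerIndep
import Fermat.Agent.Lib.Cheb.Spec

/-!
# Auxiliary primes (helper181; S55 layer G, block REC, leaf N2 of `coord/S55-G-REC.md`)

`exists_aux_prime` : given the finite-level Frobenius density theorem
(`Fermat.Agent.Lib.Cheb.Spec.FrobFiniteStatement`), an odd prime `p`, `k`, and finite sets of primes
`T`, `B`, there is a prime `r ∉ B ∪ T ∪ {p}` with `r ≡ 1 mod p ^ (k + 1)` such that no `ℓ ∈ T` is a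
`p`-th power modulo `r` (equivalently `ℓ ^ ((r - 1) / p) ≠ 1` in `ZMod r`, i.e. the class of `ℓ`
generates `(ℤ/r)ˣ / ((ℤ/r)ˣ) ^ (p ^ j)` for every `j ≤ k + 1`).
-/

set_option autoImplicit false

namespace Fermat.Agent.S55.H181

open NumberField Polynomial
open Fermat.Agent.Lib.Cheb

/-- If a prime number `r` lies in a prime ideal `P` of `𝓞 L` then `P ∩ ℤ = (r)`. -/
lemma under_eq_span_of_mem {L : Type} [Field L] [NumberField L] {P : Ideal (𝓞 L)}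
    (hP : P.IsPrime) {r : ℕ} (hr : r.Prime) (hrP : (r : 𝓞 L) ∈ P) :
    P.under ℤ = Ideal.span {(r : ℤ)} := by
  have h1 : Ideal.span {(r : ℤ)} ≤ P.under ℤ := by
    rw [Ideal.span_singleton_le_iff_mem, Ideal.under_def, Ideal.mem_comap]
    simpa using hrP
  have hmax : (Ideal.span {(r : ℤ)}).IsMaximal :=
    PrincipalIdealRing.isMaximal_of_irreducible (Nat.prime_iff_prime_int.1 hr).irreducible
  have hne : P.under ℤ ≠ ⊤ := by
    rw [Ideal.under_def]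
    exact Ideal.comap_ne_top _ hP.ne_top
  exact (hmax.eq_of_le hne h1).symm

lemma intCast_mem_iff {L : Type} [Field L] [NumberField L] {P : Ideal (𝓞 L)}
    (hP : P.IsPrime) {r : ℕ} (hr : r.Prime) (hrP : (r : 𝓞 L) ∈ P) (m : ℤ) :
    (m : 𝓞 L) ∈ P ↔ (r : ℤ) ∣ m := by
  have h := under_eq_span_of_mem hP hr hrP
  have h1 : (m : 𝓞 L) ∈ P ↔ m ∈ P.under ℤ := by
    rw [Ideal.under_def, Ideal.mem_comap]; simp
  rw [h1, h, Ideal.mem_span_singleton]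

lemma card_quot_under {L : Type} [Field L] [NumberField L] {P : Ideal (𝓞 L)}
    (hP : P.IsPrime) {r : ℕ} (hr : r.Prime) (hrP : (r : 𝓞 L) ∈ P) :
    Nat.card (ℤ ⧸ P.under ℤ) = r := by
  rw [under_eq_span_of_mem hP hr hrP,
    Nat.card_congr (Int.quotientSpanEquivZMod (r : ℤ)).toEquiv, Nat.card_zmod, Int.natAbs_natCast]

/-- **Auxiliary prime, field form.** -/
theorem exists_aux_prime_of_field (hF : Spec.FrobFiniteStatement) (L : Type) [Field L]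
    [NumberField L] [IsGalois ℚ L] {p : ℕ} (hp : p.Prime) (hp2 : p ≠ 2) (k : ℕ)
    {ζ : L} (hζ : IsPrimitiveRoot ζ (p ^ (k + 1))) (T : Finset ℕ) (hT : ∀ ℓ ∈ T, ℓ.Prime)
    (α : ℕ → L) (hα : ∀ ℓ ∈ T, α ℓ ^ p = (ℓ : L)) (B : Finset ℕ) :
    ∃ r : ℕ, r.Prime ∧ r ∉ B ∧ r ∉ T ∧ r ≠ p ∧ p ^ (k + 1) ∣ r - 1 ∧
      ∀ ℓ ∈ T, (ℓ : ZMod r) ^ ((r - 1) / p) ≠ 1 := by
  classical
  have hn : 0 < p ^ (k + 1) := pow_pos hp.pos _
  have hpn : p ∣ p ^ (k + 1) := dvd_pow_self p (Nat.succ_ne_zero k)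
  have : NeZero p := ⟨hp.ne_zero⟩
  have : NeZero (p ^ (k + 1)) := ⟨hn.ne'⟩
  have hη : IsPrimitiveRoot (ζ ^ (p ^ (k + 1) / p)) p := hζ.pow hn (Nat.div_mul_cancel hpn).symm
  obtain ⟨σ, hσζ, hσα⟩ := exists_fix_zeta_move_roots hp hp2 hn hpn hζ α T hT hα
  obtain ⟨r, P, τ, hr, hrS, hP, hrP, -, hfrob, hzp⟩ := hF L σ (B ∪ T ∪ {p})
  have hrB : r ∉ B := fun h => hrS (by simp [h])
  have hrT : r ∉ T := fun h => hrS (by simp [h])
  have hrp : r ≠ p := fun h => hrS (by simp [h])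
  have hcard := card_quot_under hP hr hrP
  have hmemZ := intCast_mem_iff hP hr hrP
  have hτσ : τ ∈ Subgroup.zpowers σ := hzp ▸ Subgroup.mem_zpowers τ
  have hστ : σ ∈ Subgroup.zpowers τ := hzp.symm ▸ Subgroup.mem_zpowers σ
  have hτζ : τ ζ = ζ := by
    obtain ⟨i, rfl⟩ := Subgroup.mem_zpowers_iff.1 hτσ
    have h1 : σ ∈ MulAction.stabilizer (L ≃ₐ[ℚ] L) ζ := hσζ
    exact (MulAction.stabilizer _ ζ).zpow_mem h1 i
  have hτα : ∀ ℓ ∈ T, τ (α ℓ) ≠ α ℓ := by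
    intro ℓ hℓ h
    obtain ⟨i, hi⟩ := Subgroup.mem_zpowers_iff.1 hστ
    have h1 : τ ∈ MulAction.stabilizer (L ≃ₐ[ℚ] L) (α ℓ) := h
    have h2 := (MulAction.stabilizer _ (α ℓ)).zpow_mem h1 i
    rw [hi] at h2
    exact hσα ℓ hℓ h2
  -- `p ∉ P`
  have hpP : (p : 𝓞 L) ∉ P := by
    intro h
    have h1 := (hmemZ (p : ℤ)).1 (by simpa using h)
    have h2 : r ∣ p := by exact_mod_cast h1
    exact hrp ((Nat.prime_dvd_prime_iff_eq hr hp).1 h2)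
  -- `r ≡ 1 mod p ^ (k + 1)`
  have hζ' : hζ.toInteger ^ (p ^ (k + 1)) = 1 := hζ.toInteger_isPrimitiveRoot.pow_eq_one
  have hnP : ((p ^ (k + 1) : ℕ) : 𝓞 L) ∉ P := by
    intro h
    rw [Nat.cast_pow] at h
    exact hpP (hP.mem_of_pow_mem _ h)
  have h1 := AlgHom.IsArithFrobAt.apply_of_pow_eq_one hfrob hζ' hnP
  rw [hcard] at h1
  have h2 : τ ζ = ζ ^ r := by
    have h := congrArg (fun x : 𝓞 L => (x : L)) h1
    have hc : ((hζ.toInteger ^ r : 𝓞 L) : L) = ζ ^ r := rfl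
    exact (show τ ζ = ((hζ.toInteger ^ r : 𝓞 L) : L) from h).trans hc
  rw [hτζ] at h2
  have hζ0 : ζ ≠ 0 := hζ.ne_zero hn.ne'
  have h3 : ζ ^ (r - 1) = 1 := by
    have : ζ * ζ ^ (r - 1) = ζ * 1 := by
      rw [← pow_succ', Nat.sub_add_cancel hr.one_lt.le, mul_one]; exact h2.symm
    exact mul_left_cancel₀ hζ0 this
  have hdvd : p ^ (k + 1) ∣ r - 1 := (hζ.pow_eq_one_iff_dvd _).1 h3
  have hpdvd : p ∣ r - 1 := hpn.trans hdvd
  refine ⟨r, hr, hrB, hrT, hrp, hdvd, fun ℓ hℓ hcon => ?_⟩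
  have hℓp : ℓ.Prime := hT ℓ hℓ
  have hαint : IsIntegral ℤ (α ℓ) :=
    ⟨X ^ p - C (ℓ : ℤ), monic_X_pow_sub_C _ hp.ne_zero, by simp [hα ℓ hℓ]⟩
  set a : 𝓞 L := ⟨α ℓ, hαint⟩ with hadef
  have hacoe : (a : L) = α ℓ := rfl
  have ha : a ^ p = (ℓ : 𝓞 L) := by
    apply RingOfIntegers.ext
    simp [hacoe, hα ℓ hℓ]
  have hfa := hfrob a
  rw [hcard] at hfa
  have har : a ^ r = a * (ℓ : 𝓞 L) ^ ((r - 1) / p) := by
    rw [← ha, ← pow_mul, Nat.mul_div_cancel' hpdvd, ← pow_succ', Nat.sub_add_cancel hr.one_lt.le]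
  have hℓP : (ℓ : 𝓞 L) ^ ((r - 1) / p) - 1 ∈ P := by
    have h4 : (r : ℤ) ∣ (ℓ : ℤ) ^ ((r - 1) / p) - 1 := by
      apply (ZMod.intCast_zmod_eq_zero_iff_dvd _ r).1
      push_cast
      rw [hcon, sub_self]
    have := (hmemZ _).2 h4
    simpa using this
  have h4 : τ • a - a ∈ P := by
    have h5 : τ • a - a = (τ • a - a ^ r) + a * ((ℓ : 𝓞 L) ^ ((r - 1) / p) - 1) := by
      rw [har]; ring
    rw [h5]
    exact P.add_mem hfa (P.mul_mem_left _ hℓP)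
  have hα0 : α ℓ ≠ 0 := by
    intro h0
    have := hα ℓ hℓ
    rw [h0, zero_pow hp.ne_zero] at this
    exact (Nat.cast_ne_zero (R := L)).2 hℓp.ne_zero this.symm
  obtain ⟨m, -, hmα⟩ := exists_pow_mul_of_pow_eq hη hα0
    (show (τ (α ℓ)) ^ p = α ℓ ^ p by rw [← map_pow, hα ℓ hℓ, map_natCast])
  have hm0 : ¬ p ∣ m := by
    intro hd
    apply hτα ℓ hℓ
    rw [hmα, (hη.pow_eq_one_iff_dvd m).2 hd, one_mul]
  have hcop : Nat.Coprime m p := ((Nat.Prime.coprime_iff_not_dvd hp).2 hm0).symm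
  set e : 𝓞 L := hη.toInteger ^ m with hedef
  have he : τ • a = e * a := by
    apply RingOfIntegers.ext
    have hc : ((e * a : 𝓞 L) : L) = (ζ ^ (p ^ (k + 1) / p)) ^ m * α ℓ := rfl
    exact (show τ (α ℓ) = _ from hmα).trans hc.symm
  have h5 : (e - 1) * a ∈ P := by
    rw [sub_mul, one_mul, ← he]; exact h4
  rcases hP.mem_or_mem h5 with h6 | h6
  · have hprim : IsPrimitiveRoot e p := hη.toInteger_isPrimitiveRoot.pow_of_coprime m hcop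
    have hsum := hprim.geom_sum_eq_zero hp.one_lt
    have h7 : ∀ i : ℕ, e ^ i - 1 ∈ P := fun i =>
      P.mem_of_dvd (by simpa using sub_dvd_pow_sub_pow e 1 i) h6
    have h8 : ∑ i ∈ Finset.range p, (e ^ i - 1) ∈ P := P.sum_mem (fun i _ => h7 i)
    rw [Finset.sum_sub_distrib, hsum, zero_sub, Finset.sum_const, Finset.card_range,
      nsmul_one, neg_mem_iff] at h8
    exact hpP h8
  · have h7 : (ℓ : 𝓞 L) ∈ P := by rw [← ha]; exact P.pow_mem_of_mem h6 p hp.pos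
    have h8 := (hmemZ (ℓ : ℤ)).1 (by simpa using h7)
    have h9 : r ∣ ℓ := by exact_mod_cast h8
    have h10 := (Nat.prime_dvd_prime_iff_eq hr hℓp).1 h9
    exact hrT (h10 ▸ hℓ)

/-- The auxiliary polynomial whose splitting field is `ℚ(ζ_{p^(k+1)}, ℓ^{1/p} : ℓ ∈ T)`. -/
noncomputable def auxPoly (p k : ℕ) (T : Finset ℕ) : ℚ[X] :=
  cyclotomic (p ^ (k + 1)) ℚ * ∏ ℓ ∈ T, (X ^ p - C (ℓ : ℚ))

lemma auxPoly_ne_zero {p : ℕ} (hp : p.Prime) (k : ℕ) (T : Finset ℕ) : auxPoly p k T ≠ 0 := by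
  refine mul_ne_zero (cyclotomic_ne_zero _ ℚ) (Finset.prod_ne_zero_iff.2 (fun ℓ _ => ?_))
  exact (monic_X_pow_sub_C (ℓ : ℚ) hp.ne_zero).ne_zero

/-- **Auxiliary prime (leaf N2 of block REC).**  Given the finite-level Frobenius density theorem,
an odd prime `p`, `k`, and finite sets `T` (of primes) and `B`: there is a prime
`r ∉ B ∪ T ∪ {p}`, `r ≡ 1 mod p ^ (k + 1)`, with `ℓ ^ ((r - 1) / p) ≠ 1` in `ZMod r` for all
`ℓ ∈ T`. -/
theorem exists_aux_prime_of_isSplittingField (hF : Spec.FrobFiniteStatement) {p : ℕ}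
    (hp : p.Prime) (hp2 : p ≠ 2) (k : ℕ) (T B : Finset ℕ) (hT : ∀ ℓ ∈ T, ℓ.Prime)
    (L : Type) [Field L] [NumberField L] [IsSplittingField ℚ L (auxPoly p k T)] :
    ∃ r : ℕ, r.Prime ∧ r ∉ B ∧ r ∉ T ∧ r ≠ p ∧ p ^ (k + 1) ∣ r - 1 ∧
      ∀ ℓ ∈ T, (ℓ : ZMod r) ^ ((r - 1) / p) ≠ 1 := by
  classical
  have hf0 : auxPoly p k T ≠ 0 := auxPoly_ne_zero hp k T
  have : Normal ℚ L := Normal.of_isSplittingField (auxPoly p k T)
  have : IsGalois ℚ L := IsGalois.mk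
  have hsplit : ((auxPoly p k T).map (algebraMap ℚ L)).Splits :=
    IsSplittingField.splits L (auxPoly p k T)
  have hfmap0 : (auxPoly p k T).map (algebraMap ℚ L) ≠ 0 :=
    (Polynomial.map_ne_zero_iff (algebraMap ℚ L).injective).2 hf0
  have hn : 0 < p ^ (k + 1) := pow_pos hp.pos _
  -- the root of unity
  have hcyc : (cyclotomic (p ^ (k + 1)) L).Splits := by
    refine Splits.of_dvd hsplit hfmap0 ?_
    rw [auxPoly, Polynomial.map_mul, map_cyclotomic]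
    exact dvd_mul_right _ _
  have hdeg : (cyclotomic (p ^ (k + 1)) L).degree ≠ 0 := by
    rw [degree_cyclotomic]
    exact_mod_cast (Nat.totient_pos.2 hn).ne'
  obtain ⟨ζ, hζroot⟩ := hcyc.exists_eval_eq_zero hdeg
  have : NeZero ((p ^ (k + 1) : ℕ) : L) := ⟨Nat.cast_ne_zero.2 hn.ne'⟩
  have hζ : IsPrimitiveRoot ζ (p ^ (k + 1)) := isRoot_cyclotomic_iff.1 hζroot
  -- the `p`-th roots
  have hroot : ∀ ℓ ∈ T, ∃ x : L, x ^ p = (ℓ : L) := by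
    intro ℓ hℓ
    have h1 : ((X ^ p - C (ℓ : ℚ) : ℚ[X]).map (algebraMap ℚ L)).Splits := by
      refine Splits.of_dvd hsplit hfmap0 (Polynomial.map_dvd _ ?_)
      rw [auxPoly]
      exact Dvd.dvd.mul_left (Finset.dvd_prod_of_mem _ hℓ) _
    have h2 : ((X ^ p - C (ℓ : ℚ) : ℚ[X]).map (algebraMap ℚ L)).degree ≠ 0 := by
      rw [Polynomial.degree_map, degree_X_pow_sub_C hp.pos]
      exact_mod_cast hp.ne_zero
    obtain ⟨x, hx⟩ := h1.exists_eval_eq_zero h2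
    refine ⟨x, ?_⟩
    simpa [sub_eq_zero] using hx
  set α : ℕ → L := fun ℓ => if h : ∃ x : L, x ^ p = (ℓ : L) then h.choose else 0 with hαdef
  have hα : ∀ ℓ ∈ T, α ℓ ^ p = (ℓ : L) := by
    intro ℓ hℓ
    have h := hroot ℓ hℓ
    simp only [hαdef, dif_pos h]
    exact h.choose_spec
  exact exists_aux_prime_of_field hF L hp hp2 k hζ T hT α hα B

/-- **Auxiliary prime (leaf N2 of block REC).**  Given the finite-level Frobenius density theorem,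
an odd prime `p`, `k`, and finite sets `T` (of primes) and `B`: there is a prime
`r ∉ B ∪ T ∪ {p}`, `r ≡ 1 mod p ^ (k + 1)`, with `ℓ ^ ((r - 1) / p) ≠ 1` in `ZMod r` for all
`ℓ ∈ T`. -/
theorem exists_aux_prime (hF : Spec.FrobFiniteStatement) {p : ℕ} (hp : p.Prime) (hp2 : p ≠ 2)
    (k : ℕ) (T B : Finset ℕ) (hT : ∀ ℓ ∈ T, ℓ.Prime) :
    ∃ r : ℕ, r.Prime ∧ r ∉ B ∧ r ∉ T ∧ r ≠ p ∧ p ^ (k + 1) ∣ r - 1 ∧
      ∀ ℓ ∈ T, (ℓ : ZMod r) ^ ((r - 1) / p) ≠ 1 := by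
  haveI : NumberField (auxPoly p k T).SplittingField :=
    { to_charZero := inferInstance, to_finiteDimensional := inferInstance }
  haveI : IsSplittingField ℚ (auxPoly p k T).SplittingField (auxPoly p k T) :=
    IsSplittingField.splittingField (auxPoly p k T)
  exact exists_aux_prime_of_isSplittingField hF hp hp2 k T B hT (auxPoly p k T).SplittingField

/-- Variant: no `ℓ ∈ T` is a `p`-th power modulo the auxiliary prime `r`. -/
theorem exists_aux_prime' (hF : Spec.FrobFiniteStatement) {p : ℕ} (hp : p.Prime) (hp2 : p ≠ 2)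
    (k : ℕ) (T B : Finset ℕ) (hT : ∀ ℓ ∈ T, ℓ.Prime) :
    ∃ r : ℕ, r.Prime ∧ r ∉ B ∧ r ∉ T ∧ r ≠ p ∧ r ≡ 1 [MOD p ^ (k + 1)] ∧
      (∀ ℓ ∈ T, (ℓ : ZMod r) ^ ((r - 1) / p) ≠ 1) ∧
      ∀ ℓ ∈ T, ∀ c : ZMod r, c ^ p ≠ (ℓ : ZMod r) := by
  obtain ⟨r, hr, hrB, hrT, hrp, hdvd, hℓ⟩ := exists_aux_prime hF hp hp2 k T B hT
  haveI : Fact r.Prime := ⟨hr⟩
  have hpdvd : p ∣ r - 1 := (dvd_pow_self p (Nat.succ_ne_zero k)).trans hdvd
  refine ⟨r, hr, hrB, hrT, hrp, ?_, hℓ, fun ℓ hℓT c hc => hℓ ℓ hℓT ?_⟩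
  · exact ((Nat.modEq_iff_dvd' hr.one_lt.le).2 hdvd).symm
  · have hℓ0 : (ℓ : ZMod r) ≠ 0 := by
      intro h0
      have h1 : r ∣ ℓ := (ZMod.natCast_eq_zero_iff ℓ r).1 h0
      exact hrT (((Nat.prime_dvd_prime_iff_eq hr (hT ℓ hℓT)).1 h1) ▸ hℓT)
    have hc0 : c ≠ 0 := by
      rintro rfl
      rw [zero_pow hp.ne_zero] at hc
      exact hℓ0 hc.symm
    rw [← hc, ← pow_mul, Nat.mul_div_cancel' hpdvd]
    exact ZMod.pow_card_sub_one_eq_one hc0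

end Fermat.Agent.S55.H181
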