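import Mathlib

/-!
# Kummer independence of distinct primes over a cyclotomic field (helper181, S55 leaf AUX, part 1)

`L/ℚ` finite Galois, `p` an odd prime, `ζ ∈ L` a primitive `n`-th root of unity with `p ∣ n`,
`α ℓ ∈ L` with `(α ℓ) ^ p = ℓ` for the primes `ℓ` of a finite set `T`.  Then there is
`σ ∈ Gal(L/ℚ)` fixing `ζ` and moving every `α ℓ` (`exists_fix_zeta_move_roots`); more precisely
the images `σ (α ℓ) = η ^ (j ℓ) * α ℓ` can be prescribed arbitrarily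
(`exists_fix_zeta_prescribed`).

Everything is done with explicit Galois elements (no intermediate fields, no degrees).
-/

set_option autoImplicit false

namespace Fermat.Agent.S55.H181

open Polynomial

variable {L : Type*} [Field L]

/-- If `x ^ p = y ^ p`, `y ≠ 0` and `η` is a primitive `p`-th root of unity then `x = η ^ i * y`. -/
lemma exists_pow_mul_of_pow_eq {p : ℕ} [NeZero p] {η : L} (hη : IsPrimitiveRoot η p) {x y : L}
    (hy : y ≠ 0) (h : x ^ p = y ^ p) : ∃ i < p, x = η ^ i * y := by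
  have h1 : (x / y) ^ p = 1 := by rw [div_pow, h, div_self (pow_ne_zero _ hy)]
  obtain ⟨i, hi, hi'⟩ := hη.eq_pow_of_pow_eq_one h1
  exact ⟨i, hi, by rw [hi']; field_simp⟩

variable [Algebra ℚ L]

/-- Powers of an automorphism acting on a Kummer generator. -/
lemma pow_apply_of_apply_eq {η α : L} (σ : L ≃ₐ[ℚ] L) (hση : σ η = η) {m : ℕ}
    (hσα : σ α = η ^ m * α) (n : ℕ) : (σ ^ n) α = η ^ (m * n) * α := by
  induction n with
  | zero => simp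
  | succ n ih =>
    rw [pow_succ', AlgEquiv.mul_apply, ih, map_mul, map_pow, hση, hσα, ← mul_assoc, ← pow_add,
      Nat.mul_succ, add_comm]

/-- **Kummer descent** with explicit Galois elements.  `H` a group of automorphisms fixing `η`
(a primitive `p`-th root of unity), `α ^ p` and `β ^ p`.  If every element of `H` fixing `α`
fixes `β`, then `β = γ * α ^ i` with `γ` fixed by `H`. -/
lemma kummer_descent {p : ℕ} (hp : p.Prime) {η : L} (hη : IsPrimitiveRoot η p)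
    (H : Subgroup (L ≃ₐ[ℚ] L)) (hHη : ∀ σ ∈ H, σ η = η)
    {α β : L} (hα : ∀ σ ∈ H, σ (α ^ p) = α ^ p) (hβp : ∀ σ ∈ H, σ (β ^ p) = β ^ p)
    (hβ : ∀ σ ∈ H, σ α = α → σ β = β) :
    ∃ i < p, ∃ γ : L, (∀ σ ∈ H, σ γ = γ) ∧ β = γ * α ^ i := by
  have : NeZero p := ⟨hp.ne_zero⟩
  by_cases hall : ∀ σ ∈ H, σ α = α
  · exact ⟨0, hp.pos, β, fun σ hσ => hβ σ hσ (hall σ hσ), by simp⟩
  push Not at hall
  obtain ⟨τ₀, hτ₀H, hτ₀α⟩ := hall
  have hα0 : α ≠ 0 := by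
    rintro rfl
    exact hτ₀α (map_zero _)
  by_cases hβ0 : β = 0
  · exact ⟨0, hp.pos, 0, fun σ _ => map_zero _, by simp [hβ0]⟩
  -- `τ₀ α = η ^ m * α` with `m ≠ 0`
  obtain ⟨m, hm, hmα⟩ := exists_pow_mul_of_pow_eq hη hα0
    (show (τ₀ α) ^ p = α ^ p by rw [← map_pow]; exact hα τ₀ hτ₀H)
  have hm0 : ¬ p ∣ m := by
    intro hdvd
    apply hτ₀α
    rw [hmα, (hη.pow_eq_one_iff_dvd m).2 hdvd, one_mul]
  -- inverse of `m` mod `p`
  have hcop : Nat.Coprime m p := ((Nat.Prime.coprime_iff_not_dvd hp).2 hm0).symm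
  obtain ⟨m', -, hm'⟩ := Nat.exists_mul_mod_eq_one_of_coprime hcop hp.one_lt
  set τ : L ≃ₐ[ℚ] L := τ₀ ^ m' with hτ
  have hτH : τ ∈ H := H.pow_mem hτ₀H m'
  have hτη : τ η = η := hHη τ hτH
  have hτα : τ α = η * α := by
    rw [hτ, pow_apply_of_apply_eq τ₀ (hHη τ₀ hτ₀H) hmα m']
    congr 1
    have h1 : m * m' = p * (m * m' / p) + 1 := by
      have := Nat.div_add_mod (m * m') p
      omega
    rw [h1, pow_add, pow_mul, hη.pow_eq_one, one_pow, one_mul, pow_one]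
  have hτα' : τ α = η ^ 1 * α := by rw [pow_one]; exact hτα
  -- `τ β = η ^ s * β`
  obtain ⟨s, hs, hsβ⟩ := exists_pow_mul_of_pow_eq hη hβ0
    (show (τ β) ^ p = β ^ p by rw [← map_pow]; exact hβp τ hτH)
  refine ⟨s, hs, β * (α ^ s)⁻¹, ?_, ?_⟩
  · intro g hg
    obtain ⟨i, _, hiα⟩ := exists_pow_mul_of_pow_eq hη hα0
      (show (g α) ^ p = α ^ p by rw [← map_pow]; exact hα g hg)
    -- `h = g⁻¹ * τ ^ i` fixes `α`
    have hτi : (τ ^ i) α = η ^ i * α := by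
      have := pow_apply_of_apply_eq τ hτη hτα' i
      simpa using this
    have hτiβ : (τ ^ i) β = η ^ (s * i) * β := pow_apply_of_apply_eq τ hτη hsβ i
    have hh : (g⁻¹ * τ ^ i) α = α := by
      rw [AlgEquiv.mul_apply, hτi, ← hiα]
      exact g.symm_apply_apply α
    have hhβ := hβ _ (H.mul_mem (H.inv_mem hg) (H.pow_mem hτH i)) hh
    have hgβ : g β = η ^ (s * i) * β := by
      rw [← hτiβ]
      have := congrArg g hhβ
      rw [AlgEquiv.mul_apply] at this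
      rw [← this]
      exact (g.apply_symm_apply _)
    rw [map_mul, map_inv₀, map_pow, hgβ, hiα, mul_pow, ← pow_mul, mul_comm i s]
    have hη0 : η ^ (s * i) ≠ 0 := pow_ne_zero _ (hη.ne_zero hp.ne_zero)
    have hαs : α ^ s ≠ 0 := pow_ne_zero _ hα0
    field_simp
  · have hαs : α ^ s ≠ 0 := pow_ne_zero _ hα0
    field_simp


omit [Algebra ℚ L] in
/-- Exponents of a primitive root are well defined mod `p`. -/
lemma natCast_eq_of_pow_eq {p : ℕ} (hp0 : p ≠ 0) {η : L} (hη : IsPrimitiveRoot η p) {x y : ℕ}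
    (h : η ^ x = η ^ y) : (x : ZMod p) = (y : ZMod p) := by
  wlog hxy : x ≤ y generalizing x y
  · exact (this h.symm (le_of_not_ge hxy)).symm
  obtain ⟨d, rfl⟩ := Nat.exists_eq_add_of_le hxy
  rw [pow_add] at h
  have h0 : η ^ x ≠ 0 := pow_ne_zero _ (hη.ne_zero hp0)
  have h1 : η ^ d = 1 := mul_left_cancel₀ h0 (by rw [← h, mul_one])
  have h2 := (hη.pow_eq_one_iff_dvd d).1 h1
  push_cast
  rw [(ZMod.natCast_eq_zero_iff d p).2 h2, add_zero]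

/-- Images of a root of unity under automorphisms. -/
lemma exists_apply_eq_pow {n : ℕ} [NeZero n] {ζ : L} (hζ : IsPrimitiveRoot ζ n)
    (σ : L ≃ₐ[ℚ] L) : ∃ c < n, σ ζ = ζ ^ c := by
  obtain ⟨c, hc, h⟩ := hζ.eq_pow_of_pow_eq_one
    (show (σ ζ) ^ n = 1 by rw [← map_pow, hζ.pow_eq_one, map_one])
  exact ⟨c, hc, h.symm⟩

/-- Automorphisms commute on elements fixed by the stabiliser of a root of unity. -/
lemma comm_apply_of_fixed {n : ℕ} [NeZero n] {ζ : L} (hζ : IsPrimitiveRoot ζ n) {γ : L}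
    (hfix : ∀ σ : L ≃ₐ[ℚ] L, σ ζ = ζ → σ γ = γ) (σ τ : L ≃ₐ[ℚ] L) : σ (τ γ) = τ (σ γ) := by
  obtain ⟨c, -, hc⟩ := exists_apply_eq_pow hζ σ
  obtain ⟨d, -, hd⟩ := exists_apply_eq_pow hζ τ
  have h1 : σ (τ ζ) = τ (σ ζ) := by
    rw [hc, hd, map_pow, map_pow, hc, hd, ← pow_mul, ← pow_mul, mul_comm]
  have h2 : ((τ * σ)⁻¹ * (σ * τ)) ζ = ζ := by
    rw [AlgEquiv.mul_apply, AlgEquiv.mul_apply, h1, ← AlgEquiv.mul_apply τ σ]
    exact (τ * σ).symm_apply_apply ζ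
  have h3 := congrArg (τ * σ) (hfix _ h2)
  rw [AlgEquiv.mul_apply ((τ * σ)⁻¹)] at h3
  have h4 : (τ * σ) ((τ * σ)⁻¹ ((σ * τ) γ)) = (σ * τ) γ := (τ * σ).apply_symm_apply _
  rw [h4] at h3
  exact h3

variable [IsGalois ℚ L] [FiniteDimensional ℚ L]

/-- A primitive `p`-th root of unity (`p` odd) is moved by some automorphism. -/
lemma exists_apply_ne_of_primitiveRoot {p : ℕ} (hp : p.Prime) (hp2 : p ≠ 2) {η : L}
    (hη : IsPrimitiveRoot η p) : ∃ τ : L ≃ₐ[ℚ] L, τ η ≠ η := by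
  by_contra hcon
  push Not at hcon
  obtain ⟨q, hq⟩ := (IsGalois.mem_range_algebraMap_iff_fixed (F := ℚ) (E := L) η).2 hcon
  have h1 : algebraMap ℚ L (q ^ p) = algebraMap ℚ L 1 := by
    rw [map_pow, hq, hη.pow_eq_one, map_one]
  have h2 : q ^ p = 1 := (algebraMap ℚ L).injective h1
  have h3 : q = 1 := by
    have := (hp.odd_of_ne_two hp2).pow_inj (R := ℚ) (a := q) (b := 1)
    rw [one_pow] at this
    exact this.1 h2
  apply hη.ne_one hp.one_lt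
  rw [← hq, h3, map_one]

/-- **Base case**: a rational number which is a `p`-th power (`p` odd) in the fixed field of the
stabiliser of a root of unity (i.e. in the cyclotomic field) is a `p`-th power in `ℚ`. -/
theorem exists_rat_pow_eq_of_fixed_aux {p : ℕ} (hp : p.Prime) (hp2 : p ≠ 2) {n : ℕ} (hn : 0 < n)
    {ζ : L} (hζ : IsPrimitiveRoot ζ n) {η : L} (hη : IsPrimitiveRoot η p) {a : ℚ} {γ : L}
    (hγ : γ ^ p = algebraMap ℚ L a) (hfix : ∀ σ : L ≃ₐ[ℚ] L, σ ζ = ζ → σ γ = γ) :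
    ∃ c : ℚ, c ^ p = a := by
  have : NeZero p := ⟨hp.ne_zero⟩
  have : NeZero n := ⟨hn.ne'⟩
  by_contra hne
  push Not at hne
  have hirr : Irreducible (X ^ p - C a : ℚ[X]) := X_pow_sub_C_irreducible_of_prime hp hne
  have hmonic : (X ^ p - C a : ℚ[X]).Monic := monic_X_pow_sub_C a hp.ne_zero
  have hη0 : η ≠ 0 := hη.ne_zero hp.ne_zero
  have hγ0 : γ ≠ 0 := by
    rintro rfl
    rw [zero_pow hp.ne_zero] at hγ
    have : a = 0 := (algebraMap ℚ L).injective (by rw [← hγ, map_zero])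
    exact hne 0 (by rw [zero_pow hp.ne_zero, this])
  have hmin : ∀ x : L, x ^ p = algebraMap ℚ L a → minpoly ℚ x = X ^ p - C a := fun x hx =>
    (minpoly.eq_of_irreducible_of_monic hirr (by simp [hx]) hmonic).symm
  -- transitivity on the roots
  have htrans : ∀ j : ℕ, ∃ σ : L ≃ₐ[ℚ] L, σ γ = η ^ j * γ := by
    intro j
    have h1 : (η ^ j * γ) ^ p = algebraMap ℚ L a := by
      rw [mul_pow, ← pow_mul, mul_comm j p, pow_mul, hη.pow_eq_one, one_pow, one_mul, hγ]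
    have h2 : minpoly ℚ (η ^ j * γ) = minpoly ℚ γ := by rw [hmin _ h1, hmin _ hγ]
    obtain ⟨σ, hσ⟩ := (Normal.minpoly_eq_iff_mem_orbit L).1 h2
    exact ⟨σ, hσ⟩
  -- action on `η`
  have hact : ∀ σ : L ≃ₐ[ℚ] L, ∃ t < p, σ η = η ^ t := fun σ => exists_apply_eq_pow hη σ
  have hactγ : ∀ σ : L ≃ₐ[ℚ] L, ∃ u < p, σ γ = η ^ u * γ := fun σ =>
    exists_pow_mul_of_pow_eq hη hγ0
      (show (σ γ) ^ p = γ ^ p by rw [← map_pow, hγ, AlgEquiv.commutes])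
  -- the basic relation
  have hrel : ∀ (σ τ : L ≃ₐ[ℚ] L) (t u t' u' : ℕ), σ η = η ^ t → σ γ = η ^ u * γ →
      τ η = η ^ t' → τ γ = η ^ u' * γ →
      ((t * u' + u : ℕ) : ZMod p) = ((t' * u + u' : ℕ) : ZMod p) := by
    intro σ τ t u t' u' h1 h2 h3 h4
    have hc := comm_apply_of_fixed hζ hfix σ τ
    rw [h4, h2, map_mul, map_mul, map_pow, map_pow, h1, h3, h2, h4, ← pow_mul, ← pow_mul,
      ← mul_assoc, ← mul_assoc, ← pow_add, ← pow_add] at hc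
    exact natCast_eq_of_pow_eq hp.ne_zero hη (mul_right_cancel₀ hγ0 hc)
  obtain ⟨σ, hσγ⟩ := htrans 1
  obtain ⟨t, -, hση⟩ := hact σ
  obtain ⟨τ, hτη⟩ := exists_apply_ne_of_primitiveRoot hp hp2 hη
  obtain ⟨t₂, -, hτη'⟩ := hact τ
  obtain ⟨u₂, -, hτγ⟩ := hactγ τ
  have hFp : Fact p.Prime := ⟨hp⟩
  -- `t ≠ 1` in `ZMod p`
  have ht1 : (t : ZMod p) ≠ 1 := by
    intro ht
    have h := hrel σ τ t 1 t₂ u₂ hση hσγ hτη' hτγ
    push_cast at h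
    rw [ht, one_mul, mul_one] at h
    have h5 : (t₂ : ZMod p) = ((1 : ℕ) : ZMod p) := by
      have := add_left_cancel (a := (u₂ : ZMod p)) (b := 1) (c := (t₂ : ZMod p))
        (by rw [h]; ring)
      rw [← this]; simp
    rw [ZMod.natCast_eq_natCast_iff] at h5
    apply hτη
    rw [hτη']
    obtain ⟨d, hd⟩ : p ∣ t₂ - 1 := (Nat.modEq_iff_dvd' (by
      by_contra h0
      have : t₂ = 0 := by omega
      rw [this] at h5
      have := h5.symm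
      rw [Nat.modEq_zero_iff_dvd] at this
      exact hp.one_lt.ne' (Nat.dvd_one.1 this))).1 h5.symm
    have ht₂ : t₂ = p * d + 1 := by
      have : 1 ≤ t₂ := by
        by_contra h0
        have h00 : t₂ = 0 := by omega
        rw [h00] at h5
        have := h5.symm
        rw [Nat.modEq_zero_iff_dvd] at this
        exact hp.one_lt.ne' (Nat.dvd_one.1 this)
      omega
    rw [ht₂, pow_add, pow_mul, hη.pow_eq_one, one_pow, one_mul, pow_one]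
  -- the element `σ'` with translation part `x₀ = (1 - t)⁻¹`
  set x₀ : ZMod p := (1 - (t : ZMod p))⁻¹ with hx₀
  obtain ⟨σ', hσ'γ⟩ := htrans x₀.val
  obtain ⟨t', -, hσ'η⟩ := hact σ'
  have h := hrel σ σ' t 1 t' x₀.val hση hσγ hσ'η hσ'γ
  push_cast at h
  rw [ZMod.natCast_zmod_val, mul_one] at h
  have hne1 : (1 - (t : ZMod p)) ≠ 0 := fun h0 => ht1 (by rw [sub_eq_zero] at h0; exact h0.symm)
  have ht'0 : (t' : ZMod p) = 0 := by
    have h6 : (1 - (t : ZMod p)) * x₀ = 1 := by rw [hx₀]; exact mul_inv_cancel₀ hne1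
    have h7 : (t' : ZMod p) = (t : ZMod p) * x₀ + 1 - x₀ := by rw [h]; ring
    rw [h7]
    have : (t : ZMod p) * x₀ + 1 - x₀ = 1 - (1 - (t : ZMod p)) * x₀ := by ring
    rw [this, h6, sub_self]
  have hdvd : p ∣ t' := (ZMod.natCast_eq_zero_iff t' p).1 ht'0
  have h8 : σ' η = 1 := by rw [hσ'η]; exact (hη.pow_eq_one_iff_dvd t').2 hdvd
  have h9 : η = 1 := by
    have := congrArg σ'.symm h8
    rwa [AlgEquiv.symm_apply_apply, map_one] at this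
  exact hη.ne_one hp.one_lt h9

/-- **Base case**: a rational number which is a `p`-th power (`p` odd) in the fixed field of the
stabiliser of a root of unity (i.e. in the cyclotomic field) is a `p`-th power in `ℚ`. -/
theorem exists_rat_pow_eq_of_fixed {p : ℕ} (hp : p.Prime) (hp2 : p ≠ 2) {n : ℕ} (hn : 0 < n)
    (hpn : p ∣ n) {ζ : L} (hζ : IsPrimitiveRoot ζ n) {a : ℚ} {γ : L}
    (hγ : γ ^ p = algebraMap ℚ L a) (hfix : ∀ σ : L ≃ₐ[ℚ] L, σ ζ = ζ → σ γ = γ) :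
    ∃ c : ℚ, c ^ p = a :=
  exists_rat_pow_eq_of_fixed_aux hp hp2 hn hζ (hζ.pow hn (Nat.div_mul_cancel hpn).symm) hγ hfix

omit [IsGalois ℚ L] [FiniteDimensional ℚ L] in
/-- The subgroup of `Gal(L/ℚ)` fixing `ζ` and `α ℓ` for `ℓ ∈ T`. -/
def fixer (ζ : L) (α : ℕ → L) (T : Finset ℕ) : Subgroup (L ≃ₐ[ℚ] L) where
  carrier := {σ | σ ζ = ζ ∧ ∀ ℓ ∈ T, σ (α ℓ) = α ℓ}
  mul_mem' := by
    rintro σ τ ⟨h1, h2⟩ ⟨h3, h4⟩
    exact ⟨by rw [AlgEquiv.mul_apply, h3, h1],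
      fun ℓ hℓ => by rw [AlgEquiv.mul_apply, h4 ℓ hℓ, h2 ℓ hℓ]⟩
  one_mem' := ⟨rfl, fun _ _ => rfl⟩
  inv_mem' := by
    rintro σ ⟨h1, h2⟩
    refine ⟨?_, fun ℓ hℓ => ?_⟩
    · have := σ.symm_apply_apply ζ
      rw [h1] at this
      exact this
    · have := σ.symm_apply_apply (α ℓ)
      rw [h2 ℓ hℓ] at this
      exact this

omit [IsGalois ℚ L] [FiniteDimensional ℚ L] in
lemma mem_fixer_iff {ζ : L} {α : ℕ → L} {T : Finset ℕ} {σ : L ≃ₐ[ℚ] L} :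
    σ ∈ fixer ζ α T ↔ σ ζ = ζ ∧ ∀ ℓ ∈ T, σ (α ℓ) = α ℓ := Iff.rfl

omit [Algebra ℚ L] [IsGalois ℚ L] [FiniteDimensional ℚ L] in
lemma pow_eq_pow_of_mod_eq {p : ℕ} {η : L} (hη : η ^ p = 1) {A B : ℕ} (h : A % p = B % p) :
    η ^ A = η ^ B := by
  rw [← Nat.div_add_mod A p, ← Nat.div_add_mod B p, pow_add, pow_add, pow_mul, pow_mul, hη,
    one_pow, one_pow, h]

omit [IsGalois ℚ L] [FiniteDimensional ℚ L] in
/-- **Iterated Kummer descent.** -/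
theorem kummer_descent_finset {p : ℕ} (hp : p.Prime) {n : ℕ} (hn : 0 < n) (hpn : p ∣ n) {ζ : L}
    (hζ : IsPrimitiveRoot ζ n) (α : ℕ → L) (T : Finset ℕ)
    (hα : ∀ ℓ ∈ T, α ℓ ^ p = (ℓ : L)) (hT0 : ∀ ℓ ∈ T, ℓ ≠ 0) :
    ∀ (a : ℚ) (β : L), β ^ p = algebraMap ℚ L a → (∀ σ ∈ fixer ζ α T, σ β = β) →
      ∃ (e : ℕ → ℕ) (γ : L), (∀ σ : L ≃ₐ[ℚ] L, σ ζ = ζ → σ γ = γ) ∧
        β = γ * ∏ ℓ ∈ T, α ℓ ^ e ℓ := by
  classical
  have hη : IsPrimitiveRoot (ζ ^ (n / p)) p := hζ.pow hn (Nat.div_mul_cancel hpn).symm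
  induction T using Finset.induction_on with
  | empty =>
    intro a β _ hfix
    exact ⟨fun _ => 0, β, fun σ hσ => hfix σ ⟨hσ, by simp⟩, by simp⟩
  | insert ℓ₁ T' hℓ₁ ih =>
    intro a β hβ hfix
    have hα' : ∀ ℓ ∈ T', α ℓ ^ p = (ℓ : L) := fun ℓ hℓ => hα ℓ (Finset.mem_insert_of_mem hℓ)
    have hT0' : ∀ ℓ ∈ T', ℓ ≠ 0 := fun ℓ hℓ => hT0 ℓ (Finset.mem_insert_of_mem hℓ)
    have hα₁ : α ℓ₁ ^ p = (ℓ₁ : L) := hα ℓ₁ (Finset.mem_insert_self _ _)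
    have hℓ₁0 : (ℓ₁ : ℚ) ≠ 0 := Nat.cast_ne_zero.2 (hT0 ℓ₁ (Finset.mem_insert_self _ _))
    obtain ⟨i, -, γ₁, hγ₁, hβγ⟩ := kummer_descent hp hη (fixer ζ α T')
      (fun σ hσ => by rw [map_pow, hσ.1]) (α := α ℓ₁) (β := β)
      (fun σ _ => by rw [hα₁, map_natCast])
      (fun σ _ => by rw [hβ, AlgEquiv.commutes])
      (fun σ hσ hσα => hfix σ ⟨hσ.1, fun ℓ hℓ => by
        rcases Finset.mem_insert.1 hℓ with rfl | h
        · exact hσα
        · exact hσ.2 ℓ h⟩)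
    have hγ₁p : γ₁ ^ p = algebraMap ℚ L (a / (ℓ₁ : ℚ) ^ i) := by
      have h1 : β ^ p = γ₁ ^ p * algebraMap ℚ L ((ℓ₁ : ℚ) ^ i) := by
        rw [hβγ, mul_pow, ← pow_mul, mul_comm i p, pow_mul, hα₁, map_pow, map_natCast]
      rw [hβ] at h1
      have h2 : algebraMap ℚ L ((ℓ₁ : ℚ) ^ i) ≠ 0 := by
        rw [Ne, map_eq_zero]; exact pow_ne_zero _ hℓ₁0
      rw [map_div₀, h1, mul_div_assoc, div_self h2, mul_one]
    obtain ⟨e, γ, hγ, hγ₁e⟩ := ih hα' hT0' _ γ₁ hγ₁p hγ₁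
    refine ⟨Function.update e ℓ₁ i, γ, hγ, ?_⟩
    have hprod : ∏ ℓ ∈ T', α ℓ ^ Function.update e ℓ₁ i ℓ = ∏ ℓ ∈ T', α ℓ ^ e ℓ :=
      Finset.prod_congr rfl (fun ℓ hℓ => by
        rw [Function.update_of_ne (ne_of_mem_of_not_mem hℓ hℓ₁)])
    rw [Finset.prod_insert hℓ₁, Function.update_self, hprod, hβγ, hγ₁e]
    ring

/-- **Kummer independence, prescribed form**: for distinct primes `ℓ ∈ T` with `p`-th roots
`α ℓ ∈ L`, and any exponents `j ℓ`, some `σ ∈ Gal(L/ℚ)` fixes `ζ` and maps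
`α ℓ ↦ η ^ (j ℓ) * α ℓ`, `η = ζ ^ (n / p)`. -/
theorem exists_fix_zeta_prescribed {p : ℕ} (hp : p.Prime) (hp2 : p ≠ 2) {n : ℕ} (hn : 0 < n)
    (hpn : p ∣ n) {ζ : L} (hζ : IsPrimitiveRoot ζ n) (α : ℕ → L) (T : Finset ℕ)
    (hT : ∀ ℓ ∈ T, ℓ.Prime) (hα : ∀ ℓ ∈ T, α ℓ ^ p = (ℓ : L)) (j : ℕ → ℕ) :
    ∃ σ : L ≃ₐ[ℚ] L, σ ζ = ζ ∧ ∀ ℓ ∈ T, σ (α ℓ) = (ζ ^ (n / p)) ^ (j ℓ) * α ℓ := by
  classical
  have : NeZero p := ⟨hp.ne_zero⟩
  have : CharZero L := algebraRat.charZero L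
  have hη : IsPrimitiveRoot (ζ ^ (n / p)) p := hζ.pow hn (Nat.div_mul_cancel hpn).symm
  induction T using Finset.induction_on with
  | empty => exact ⟨1, rfl, by simp⟩
  | insert ℓ₀ T' hℓ₀ ih =>
    have hα' : ∀ ℓ ∈ T', α ℓ ^ p = (ℓ : L) := fun ℓ hℓ => hα ℓ (Finset.mem_insert_of_mem hℓ)
    have hT' : ∀ ℓ ∈ T', ℓ.Prime := fun ℓ hℓ => hT ℓ (Finset.mem_insert_of_mem hℓ)
    have hα₀ : α ℓ₀ ^ p = (ℓ₀ : L) := hα ℓ₀ (Finset.mem_insert_self _ _)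
    have hℓ₀p : ℓ₀.Prime := hT ℓ₀ (Finset.mem_insert_self _ _)
    have hα₀0 : α ℓ₀ ≠ 0 := by
      intro h0
      rw [h0, zero_pow hp.ne_zero] at hα₀
      exact (Nat.cast_ne_zero (R := L)).2 hℓ₀p.ne_zero hα₀.symm
    obtain ⟨σ', hσ'ζ, hσ'α⟩ := ih hT' hα'
    -- an element of the fixer moving `α ℓ₀`
    have hmove : ∃ τ ∈ fixer ζ α T', τ (α ℓ₀) ≠ α ℓ₀ := by
      by_contra hcon
      push Not at hcon
      obtain ⟨e, γ, hγ, hγe⟩ := kummer_descent_finset hp hn hpn hζ α T' hα'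
        (fun ℓ hℓ => (hT' ℓ hℓ).ne_zero) (ℓ₀ : ℚ) (α ℓ₀) (by rw [hα₀, map_natCast]) hcon
      -- `γ ^ p = ℓ₀ / ∏ ℓ ^ e ℓ`
      have hprod0 : (∏ ℓ ∈ T', ((ℓ : ℚ)) ^ e ℓ) ≠ 0 :=
        Finset.prod_ne_zero_iff.2 (fun ℓ hℓ => pow_ne_zero _ (Nat.cast_ne_zero.2 (hT' ℓ hℓ).ne_zero))
      have hγp : γ ^ p = algebraMap ℚ L ((ℓ₀ : ℚ) / ∏ ℓ ∈ T', ((ℓ : ℚ)) ^ e ℓ) := by
        have h1 : (α ℓ₀) ^ p = γ ^ p * algebraMap ℚ L (∏ ℓ ∈ T', ((ℓ : ℚ)) ^ e ℓ) := by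
          conv_lhs => rw [hγe]
          rw [mul_pow, ← Finset.prod_pow, map_prod]
          congr 1
          refine Finset.prod_congr rfl (fun ℓ hℓ => ?_)
          rw [← pow_mul, mul_comm, pow_mul, hα' ℓ hℓ, map_pow, map_natCast]
        have h2 : algebraMap ℚ L (∏ ℓ ∈ T', ((ℓ : ℚ)) ^ e ℓ) ≠ 0 := by
          rw [Ne, map_eq_zero]; exact hprod0
        rw [map_div₀, map_natCast, ← hα₀, h1, mul_div_assoc, div_self h2, mul_one]
      obtain ⟨c, hc⟩ := exists_rat_pow_eq_of_fixed hp hp2 hn hpn hζ hγp hγ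
      have hFact : Fact ℓ₀.Prime := ⟨hℓ₀p⟩
      have hc0 : c ≠ 0 := by
        rintro rfl
        rw [zero_pow hp.ne_zero] at hc
        have := (div_eq_zero_iff.1 hc.symm).resolve_right hprod0
        exact (Nat.cast_ne_zero (R := ℚ)).2 hℓ₀p.ne_zero this
      have hval : padicValRat ℓ₀ (c ^ p) = 1 := by
        rw [hc, padicValRat.div (Nat.cast_ne_zero.2 hℓ₀p.ne_zero) hprod0, padicValRat.self hℓ₀p.one_lt]
        have : padicValRat ℓ₀ (∏ ℓ ∈ T', ((ℓ : ℚ)) ^ e ℓ) = 0 := by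
          have key : (∏ ℓ ∈ T', ((ℓ : ℚ)) ^ e ℓ) ≠ 0 ∧
              padicValRat ℓ₀ (∏ ℓ ∈ T', ((ℓ : ℚ)) ^ e ℓ) = 0 := by
            refine Finset.prod_induction (fun ℓ : ℕ => ((ℓ : ℚ)) ^ e ℓ)
              (fun q : ℚ => q ≠ 0 ∧ padicValRat ℓ₀ q = 0) ?_ ?_ ?_
            · rintro a b ⟨ha, ha'⟩ ⟨hb, hb'⟩
              exact ⟨mul_ne_zero ha hb, by rw [padicValRat.mul ha hb, ha', hb', add_zero]⟩
            · exact ⟨one_ne_zero, padicValRat.one⟩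
            · intro ℓ hℓ
              refine ⟨pow_ne_zero _ (Nat.cast_ne_zero.2 (hT' ℓ hℓ).ne_zero), ?_⟩
              rw [padicValRat.pow, padicValRat.of_nat]
              have hne : ℓ ≠ ℓ₀ := ne_of_mem_of_not_mem hℓ hℓ₀
              have : padicValNat ℓ₀ ℓ = 0 :=
                padicValNat.eq_zero_of_not_dvd (fun hdvd =>
                  hne ((Nat.prime_dvd_prime_iff_eq hℓ₀p (hT' ℓ hℓ)).1 hdvd).symm)
              rw [this]; simp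
          exact key.2
        rw [this, sub_zero]
      rw [padicValRat.pow] at hval
      have hdvd : (p : ℤ) ∣ 1 := ⟨_, hval.symm⟩
      have := Int.eq_one_of_dvd_one (by positivity) hdvd
      exact hp.one_lt.ne' (by exact_mod_cast this)
    obtain ⟨τ, hτ, hτα⟩ := hmove
    obtain ⟨m, -, hmα⟩ := exists_pow_mul_of_pow_eq hη hα₀0
      (show (τ (α ℓ₀)) ^ p = α ℓ₀ ^ p by rw [← map_pow, hα₀, map_natCast])
    have hm0 : ¬ p ∣ m := by
      intro hdvd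
      apply hτα
      rw [hmα, (hη.pow_eq_one_iff_dvd m).2 hdvd, one_mul]
    have hcop : Nat.Coprime m p := ((Nat.Prime.coprime_iff_not_dvd hp).2 hm0).symm
    obtain ⟨i, -, hiα⟩ := exists_pow_mul_of_pow_eq hη hα₀0
      (show (σ' (α ℓ₀)) ^ p = α ℓ₀ ^ p by rw [← map_pow, hα₀, map_natCast])
    obtain ⟨x, -, hx⟩ := Nat.exists_mul_mod_eq_of_coprime (j ℓ₀ + (p - 1) * i) hcop hp.ne_zero
    have hτη : τ (ζ ^ (n / p)) = ζ ^ (n / p) := by rw [map_pow, hτ.1]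
    have hσ'η : σ' (ζ ^ (n / p)) = ζ ^ (n / p) := by rw [map_pow, hσ'ζ]
    refine ⟨σ' * τ ^ x, ?_, fun ℓ hℓ => ?_⟩
    · have : τ ^ x ∈ fixer ζ α T' := (fixer ζ α T').pow_mem hτ x
      rw [AlgEquiv.mul_apply, this.1, hσ'ζ]
    · rcases Finset.mem_insert.1 hℓ with rfl | h
      · rw [AlgEquiv.mul_apply, pow_apply_of_apply_eq τ hτη hmα x, map_mul, map_pow, hσ'η, hiα,
          ← mul_assoc, ← pow_add]
        congr 1
        apply pow_eq_pow_of_mod_eq hη.pow_eq_one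
        have h1 : m * x + i ≡ j ℓ + (p - 1) * i + i [MOD p] := Nat.ModEq.add_right i hx
        have h2 : j ℓ + (p - 1) * i + i = j ℓ + p * i := by
          have : p - 1 + 1 = p := Nat.sub_add_cancel hp.one_lt.le
          calc j ℓ + (p - 1) * i + i = j ℓ + ((p - 1) + 1) * i := by ring
            _ = j ℓ + p * i := by rw [this]
        have h3 : j ℓ + p * i ≡ j ℓ [MOD p] := Nat.add_mul_mod_self_left _ _ _
        rw [h2] at h1
        exact h1.trans h3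
      · have : τ ^ x ∈ fixer ζ α T' := (fixer ζ α T').pow_mem hτ x
        rw [AlgEquiv.mul_apply, this.2 ℓ h, hσ'α ℓ h]

/-- **Kummer independence**: some `σ ∈ Gal(L/ℚ)` fixes `ζ` and moves every `α ℓ`, `ℓ ∈ T`. -/
theorem exists_fix_zeta_move_roots {p : ℕ} (hp : p.Prime) (hp2 : p ≠ 2) {n : ℕ} (hn : 0 < n)
    (hpn : p ∣ n) {ζ : L} (hζ : IsPrimitiveRoot ζ n) (α : ℕ → L) (T : Finset ℕ)
    (hT : ∀ ℓ ∈ T, ℓ.Prime) (hα : ∀ ℓ ∈ T, α ℓ ^ p = (ℓ : L)) :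
    ∃ σ : L ≃ₐ[ℚ] L, σ ζ = ζ ∧ ∀ ℓ ∈ T, σ (α ℓ) ≠ α ℓ := by
  have : CharZero L := algebraRat.charZero L
  have hη : IsPrimitiveRoot (ζ ^ (n / p)) p := hζ.pow hn (Nat.div_mul_cancel hpn).symm
  obtain ⟨σ, hσζ, hσα⟩ := exists_fix_zeta_prescribed hp hp2 hn hpn hζ α T hT hα (fun _ => 1)
  refine ⟨σ, hσζ, fun ℓ hℓ h => ?_⟩
  have hα0 : α ℓ ≠ 0 := by
    intro h0
    have := hα ℓ hℓ
    rw [h0, zero_pow hp.ne_zero] at this
    exact (Nat.cast_ne_zero (R := L)).2 (hT ℓ hℓ).ne_zero this.symm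
  have h1 := hσα ℓ hℓ
  rw [h, pow_one] at h1
  have h2 : ζ ^ (n / p) = 1 := by
    have := mul_right_cancel₀ hα0 (show (1 : L) * α ℓ = ζ ^ (n / p) * α ℓ by rw [one_mul]; exact h1)
    exact this.symm
  exact hη.ne_one hp.one_lt h2

end Fermat.Agent.S55.H181
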